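import Fermat.Agent.Audit.ResidualThree
import Fermat.Agent.ConductorLevel.Raise
import Fermat.Agent.Newforms.Eigen
import Fermat.Agent.Newforms.Newform
import Fermat.Prelude.Def_WeierstrassCurve_Mlc1RowStatement

/-!
# An integral eigen form of cube-free level from modularity at the conductor level

The newform below the eigenform of the curve has coefficients `±1` at the primes of its level; the
coefficients at the other bad primes are removed, at the cost of their squares in the level.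
-/

set_option autoImplicit false
set_option linter.style.haveILetI false

noncomputable section

namespace Fermat.Agent.Extra.ResidualEigen

open CongruenceSubgroup ModularFormClass EisensteinWeightOne
open Fermat.Agent.HeckeDuality (eulerWeight)

/-- The recursion of the coefficients of a normalised eigenform. -/
theorem qCoeff_prime_rec {N : ℕ} [NeZero N] {f : CuspForm (Gamma0 N) 2}
    (hf : f.IsNormalizedEigenform) {ℓ : ℕ} (hℓ : ℓ.Prime) (n : ℕ) :
    qCoeff f (n * ℓ) + (if ℓ ∣ n then (if ℓ ∣ N then 0 else (ℓ : ℂ)) * qCoeff f (n / ℓ) else 0) =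
      qCoeff f ℓ * qCoeff f n := by
  have h := (Newforms.hOp_eq_smul_iff hℓ f _).1 (Newforms.hOp_of_isNormalizedEigenform hf hℓ) n
  simpa [eulerWeight] using h

/-- Remove the coefficients at the multiples of a prime not dividing the level. -/
theorem exists_deplete_prime {M q : ℕ} [NeZero M] (hq : q.Prime) (hqM : ¬ q ∣ M)
    {g : CuspForm (Gamma0 M) 2} (hg : g.IsNormalizedEigenform) :
    ∃ h : CuspForm (Gamma0 (q ^ 2 * M)) 2, h.IsNormalizedEigenform ∧ qCoeff h q = 0 ∧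
      ∀ ℓ : ℕ, ℓ.Prime → ℓ ≠ q → qCoeff h ℓ = qCoeff g ℓ := by
  haveI : NeZero (q ^ 2 * M) := ⟨mul_ne_zero (pow_ne_zero 2 hq.ne_zero) (NeZero.ne M)⟩
  set h : CuspForm (Gamma0 (q ^ 2 * M)) 2 :=
    Newforms.levelIncl (dvd_mul_left M (q ^ 2)) g -
      qCoeff g q • Newforms.levelRaise q
        (mul_dvd_mul_right (dvd_pow_self q two_ne_zero) M) g +
      (q : ℂ) • Newforms.levelRaise (q ^ 2) dvd_rfl g with hh
  have hc : ∀ n, qCoeff h n = qCoeff g n -
      qCoeff g q * (if q ∣ n then qCoeff g (n / q) else 0) +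
      (q : ℂ) * (if q ^ 2 ∣ n then qCoeff g (n / q ^ 2) else 0) := by
    intro n
    rw [hh, HeckeDuality.coeff_add, HeckeDuality.coeff_sub, HeckeDuality.coeff_smul,
      HeckeDuality.coeff_smul, Newforms.qCoeff_levelIncl, Newforms.qCoeff_levelRaise,
      Newforms.qCoeff_levelRaise]
  have hnd : ∀ n, ¬ q ∣ n → qCoeff h n = qCoeff g n := fun n hn => by
    rw [hc, if_neg hn, if_neg fun hd => hn ((dvd_pow_self q two_ne_zero).trans hd)]
    ring
  have hd : ∀ n, q ∣ n → qCoeff h n = 0 := by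
    rintro n ⟨m, rfl⟩
    have e := qCoeff_prime_rec hg hq m
    rw [if_neg hqM, mul_comm m q] at e
    rw [hc, if_pos (dvd_mul_right q m), Nat.mul_div_cancel_left _ hq.pos]
    by_cases hm : q ∣ m
    · obtain ⟨j, rfl⟩ := hm
      rw [if_pos (dvd_mul_right q j), Nat.mul_div_cancel_left _ hq.pos] at e
      rw [show q * (q * j) = q ^ 2 * j by ring] at e ⊢
      rw [if_pos (dvd_mul_right _ j), Nat.mul_div_cancel_left _ (pow_pos hq.pos 2)]
      linear_combination e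
    · rw [if_neg hm, add_zero] at e
      rw [if_neg fun hd => hm ((Nat.mul_dvd_mul_iff_left hq.pos).1 (by rwa [← pow_two]))]
      linear_combination e
  refine ⟨h, ⟨?_, fun m n hmn => ?_, fun p r hp hpN => ?_, fun p r hp hpN => ?_⟩, hd q dvd_rfl,
    fun ℓ hℓ hne => hnd ℓ fun hh => hne ((Nat.prime_dvd_prime_iff_eq hq hℓ).1 hh).symm⟩
  · rw [hnd 1 hq.not_dvd_one, hg.qCoeff_one]
  · by_cases hm : q ∣ m
    · rw [hd m hm, hd _ (dvd_mul_of_dvd_left hm n), zero_mul]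
    by_cases hn : q ∣ n
    · rw [hd n hn, hd _ (dvd_mul_of_dvd_right hn m), mul_zero]
    rw [hnd _ fun hh => (hq.dvd_mul.1 hh).elim hm hn, hnd m hm, hnd n hn,
      hg.qCoeff_mul_of_coprime m n hmn]
  · have hqp : ¬ q ∣ p := fun hh => hpN (dvd_mul_of_dvd_left
      (dvd_pow ((Nat.prime_dvd_prime_iff_eq hq hp).1 hh ▸ dvd_rfl) two_ne_zero) M)
    have hpow : ∀ i, ¬ q ∣ p ^ i := fun i hh => hqp (hq.dvd_of_dvd_pow hh)
    rw [hnd _ (hpow _), hnd _ hqp, hnd _ (hpow _), hnd _ (hpow _),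
      hg.qCoeff_prime_pow_of_not_dvd p r hp fun hh => hpN (dvd_mul_of_dvd_right hh _)]
  · by_cases hqp : q ∣ p
    · rw [hd p hqp, hd _ (dvd_pow hqp (by omega)), zero_mul]
    · have hpow : ∀ i, ¬ q ∣ p ^ i := fun i hh => hqp (hq.dvd_of_dvd_pow hh)
      rw [hnd _ (hpow _), hnd _ hqp, hnd _ (hpow _), hg.qCoeff_prime_pow_of_dvd p r hp
        ((hp.dvd_mul.1 hpN).resolve_left fun hh =>
          hqp ((Nat.prime_dvd_prime_iff_eq hp hq).1 (hp.dvd_of_dvd_pow hh) ▸ dvd_rfl))]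

/-- Remove the coefficients at a set of primes not dividing the level. -/
theorem exists_deplete {M : ℕ} [NeZero M] {g : CuspForm (Gamma0 M) 2}
    (hg : g.IsNormalizedEigenform) (h3 : ∀ p : ℕ, p.Prime → ¬ p ^ 3 ∣ M) (D : Finset ℕ)
    (hD : ∀ q ∈ D, q.Prime ∧ ¬ q ∣ M) :
    ∃ (N : ℕ) (_ : NeZero N) (h : CuspForm (Gamma0 N) 2), h.IsNormalizedEigenform ∧
      (∀ p : ℕ, p.Prime → ¬ p ^ 3 ∣ N) ∧ (∀ p : ℕ, p.Prime → (p ∣ N ↔ p ∣ M ∨ p ∈ D)) ∧
      ∀ ℓ : ℕ, ℓ.Prime → qCoeff h ℓ = if ℓ ∈ D then 0 else qCoeff g ℓ := by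
  classical
  induction D using Finset.induction_on with
  | empty => exact ⟨M, ‹_›, g, hg, h3, fun p _ => by simp, fun ℓ _ => by simp⟩
  | insert q D hqD ih =>
    obtain ⟨N, hN0, h, hh, hN3, hNp, hhg⟩ := ih fun r hr => hD r (Finset.mem_insert_of_mem hr)
    obtain ⟨hq, hqM⟩ := hD q (Finset.mem_insert_self q D)
    have hqN : ¬ q ∣ N := fun hd => ((hNp q hq).1 hd).elim hqM hqD
    obtain ⟨h', hh', hq0, hother⟩ := exists_deplete_prime hq hqN hh
    refine ⟨q ^ 2 * N, ⟨mul_ne_zero (pow_ne_zero 2 hq.ne_zero) (NeZero.ne N)⟩, h', hh',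
      fun p hp hd => ?_, fun p hp => ?_, fun ℓ hℓ => ?_⟩
    · by_cases hpq : p = q
      · subst hpq
        rw [pow_succ] at hd
        exact hqN (Nat.dvd_of_mul_dvd_mul_left (pow_pos hp.pos 2) hd)
      · exact hN3 p hp
          (((Nat.coprime_primes hp hq).2 hpq |>.pow 3 2).dvd_of_dvd_mul_left hd)
    · rw [hp.dvd_mul, hNp p hp, Finset.mem_insert]
      refine ⟨?_, ?_⟩
      · rintro (h1 | h1 | h1)
        · exact .inr (.inl ((Nat.prime_dvd_prime_iff_eq hp hq).1 (hp.dvd_of_dvd_pow h1)))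
        · exact .inl h1
        · exact .inr (.inr h1)
      · rintro (h1 | rfl | h1)
        · exact .inr (.inl h1)
        · exact .inl (dvd_pow_self p two_ne_zero)
        · exact .inr (.inr h1)
    · by_cases hℓq : ℓ = q
      · subst hℓq
        rw [hq0, if_pos (Finset.mem_insert_self ℓ D)]
      · rw [hother ℓ hℓ hℓq, hhg ℓ hℓ]
        simp [Finset.mem_insert, hℓq]

/-- A normalised eigenform with integral coefficients at the primes has integral coefficients. -/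
theorem exists_int_qCoeff {N : ℕ} [NeZero N] {f : CuspForm (Gamma0 N) 2}
    (hf : f.IsNormalizedEigenform) (h : ∀ ℓ : ℕ, ℓ.Prime → ∃ m : ℤ, qCoeff f ℓ = (m : ℂ))
    (n : ℕ) : ∃ m : ℤ, qCoeff f n = (m : ℂ) := by
  induction n using Nat.strong_induction_on with
  | _ n ih =>
    rcases eq_or_ne n 0 with rfl | hn
    · exact ⟨0, by simp [HeckeDuality.coeff_zero f]⟩
    rcases eq_or_ne n 1 with rfl | hn1
    · exact ⟨1, by simp [hf.qCoeff_one]⟩
    obtain ⟨ℓ, hℓ, m, rfl⟩ := Nat.exists_prime_and_dvd hn1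
    have hm : m < ℓ * m :=
      lt_mul_of_one_lt_left (Nat.pos_of_ne_zero (right_ne_zero_of_mul hn)) hℓ.one_lt
    obtain ⟨a, ha⟩ := h ℓ hℓ
    obtain ⟨b, hb⟩ := ih m hm
    obtain ⟨c, hc⟩ := ih (m / ℓ) ((Nat.div_le_self m ℓ).trans_lt hm)
    have e := qCoeff_prime_rec hf hℓ m
    rw [mul_comm m ℓ, ha, hb, hc] at e
    refine ⟨a * b - if ℓ ∣ m then (if ℓ ∣ N then 0 else (ℓ : ℤ)) * c else 0, ?_⟩
    push_cast
    linear_combination e

theorem three_dvd_chi_sub (ℓ : ℕ) : (3 : ℤ) ∣ (chiNegThree ℓ : ℤ) - ℓ := by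
  simp only [chiNegThree]
  split_ifs <;> omega

/-- The data of milestone 46 from modularity at exactly the conductor level. -/
theorem exists_data_of_exact (W : WeierstrassCurve ℤ)
    (hW : Mlc1IsModularModelOfExactConductorLevel W) :
    ∃ (N : ℕ) (_ : NeZero N) (a : ℕ → ℤ),
      CuspForm.HasIntegralBasis N ∧
      FormalHecke.IsEigensystem
        (fun ℓ => if ℓ ∣ N then 0 else ((chiNegThree ℓ : ℤ) : ℤ)) a ∧
      CuspForm.IsLatticeRealized N a ∧
      (∀ q : ℕ, q.Prime → q ≠ 3 → ¬ q ^ 3 ∣ N) ∧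
      ∀ ℓ : ℕ, ℓ.Prime → W.IsGoodPrimeFor ℓ → ¬ ℓ ∣ N → ℓ ≠ 3 →
        (3 : ℤ) ∣ (a ℓ - W.apOfModel ℓ) := by
  classical
  obtain ⟨L, hL, hsq, hsupp, f, hf, hfW⟩ := hW
  obtain ⟨M, hML, g, hg, hgf⟩ := ConductorLevel.exists_newform_below hL.ne' hf
  haveI : NeZero M := ⟨fun h => hL.ne' (by simpa [h] using hML)⟩
  have hsqM : Squarefree M := hsq.squarefree_of_dvd hML
  have hM2 : ∀ q : ℕ, q.Prime → ¬ q ^ 2 ∣ M := fun q hq h =>
    hq.not_isUnit (hsqM q (by rwa [← pow_two]))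
  obtain ⟨N, hN0, h, hh, hN3, hNp, hhg⟩ := exists_deplete hg.1
    (fun q hq hd => hM2 q hq ((pow_dvd_pow q (by norm_num)).trans hd))
    (L.primeFactors.filter fun q => ¬ q ∣ M) fun q hq =>
      ⟨Nat.prime_of_mem_primeFactors (Finset.mem_filter.1 hq).1, (Finset.mem_filter.1 hq).2⟩
  haveI := hN0
  have hLN : ∀ ℓ : ℕ, ℓ.Prime → (ℓ ∣ N ↔ ℓ ∣ L) := fun ℓ hℓ => by
    rw [hNp ℓ hℓ, Finset.mem_filter, Nat.mem_primeFactors]
    exact ⟨fun h => h.elim (fun h => h.trans hML) fun h => h.1.2.1,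
      fun h => (em (ℓ ∣ M)).imp id fun hM => ⟨⟨hℓ, h, hL.ne'⟩, hM⟩⟩
  have hgood : ∀ ℓ : ℕ, ℓ.Prime → ¬ ℓ ∣ N → qCoeff h ℓ = (W.apOfModel ℓ : ℂ) := by
    intro ℓ hℓ hℓN
    have hℓL : ¬ ℓ ∣ L := fun hd => hℓN ((hLN ℓ hℓ).2 hd)
    rw [hhg ℓ hℓ, if_neg fun hm => hℓL (Nat.dvd_of_mem_primeFactors (Finset.mem_filter.1 hm).1),
      hgf ℓ hℓ hℓL, hfW ℓ hℓ (fun hd => hℓL ((hsupp ℓ hℓ).2 hd)) hℓL]
  have hprime : ∀ ℓ : ℕ, ℓ.Prime → ∃ m : ℤ, qCoeff h ℓ = (m : ℂ) := by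
    intro ℓ hℓ
    by_cases hℓN : ℓ ∣ N
    · by_cases hℓM : ℓ ∣ M
      · rw [hhg ℓ hℓ, if_neg (show ℓ ∉ L.primeFactors.filter (fun q => ¬ q ∣ M) from fun hm =>
          (Finset.mem_filter.1 hm).2 hℓM)]
        rcases sq_eq_one_iff.1 (Newforms.qCoeff_sq_eq_one hg hℓ hℓM (hM2 ℓ hℓ)) with e | e
        · exact ⟨1, by simp [e]⟩
        · exact ⟨-1, by simp [e]⟩
      · exact ⟨0, by rw [hhg ℓ hℓ, if_pos (Finset.mem_filter.2
          ⟨Nat.mem_primeFactors.2 ⟨hℓ, (hLN ℓ hℓ).1 hℓN, hL.ne'⟩, hℓM⟩), Int.cast_zero]⟩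
    · exact ⟨_, hgood ℓ hℓ hℓN⟩
  choose b hb using exists_int_qCoeff hh hprime
  have hb0 : b 0 = 0 := Int.cast_injective (α := ℂ) (by rw [← hb, HeckeDuality.coeff_zero h, Int.cast_zero])
  have hb1 : b 1 = 1 := Int.cast_injective (α := ℂ) (by rw [← hb, hh.qCoeff_one, Int.cast_one])
  refine Audit.exists_residualThree_data W N (fun q hq _ => hN3 q hq) h b (fun n => (hb n).symm)
    (by rw [hb0]; exact dvd_zero _) (by rw [hb1, sub_self]; exact dvd_zero _)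
    (fun ℓ hℓ n _ => ?_) fun ℓ hℓ _ hℓN _ => ?_
  · have e : b (n * ℓ) + (if ℓ ∣ n then (if ℓ ∣ N then 0 else (ℓ : ℤ)) * b (n / ℓ) else 0) =
        b ℓ * b n := by
      apply Int.cast_injective (α := ℂ)
      push_cast
      simp only [← hb]
      exact qCoeff_prime_rec hh hℓ n
    rw [mul_comm ℓ n, ← e]
    by_cases hℓn : ℓ ∣ n
    · simp only [if_pos hℓn]
      by_cases hℓN : ℓ ∣ N
      · simp only [if_pos hℓN]
        exact ⟨0, by ring⟩
      · simp only [if_neg hℓN]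
        obtain ⟨c, hc⟩ := three_dvd_chi_sub ℓ
        exact ⟨c * b (n / ℓ), by linear_combination (b (n / ℓ)) * hc⟩
    · simp only [if_neg hℓn]
      exact ⟨0, by ring⟩
  · have e : b ℓ = W.apOfModel ℓ := Int.cast_injective (α := ℂ) (by rw [← hb, hgood ℓ hℓ hℓN])
    rw [e, sub_self]
    exact dvd_zero _

end Fermat.Agent.Extra.ResidualEigen
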